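import Fermat.Agent.AutomaticZeros.Sections

/-!
# Exponential sums have automatic zero sets

Each section of a zero set of a sum `∑ c i * ∏ γ j i ^ n j` in characteristic `p` is an intersection
of zero sets of sums from one finite family.
-/

set_option autoImplicit false

noncomputable section

open MvPolynomial Finset

namespace FA.AutomaticZeros

/-- The `p`-kernel of a set of tuples. -/
def kernelSets {d : ℕ} (p : ℕ) (Z : Set (Fin d → ℕ)) : Set (Set (Fin d → ℕ)) :=
  {A | ∃ (k : ℕ) (r : Fin d → ℕ), (∀ j, r j < p ^ k) ∧ A = {m | (fun j => p ^ k * m j + r j) ∈ Z}}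

variable {p : ℕ} [hp : Fact p.Prime] {d : ℕ} {I A : Type*} [Fintype I] [Fintype A]

/-- **Exponential sums**: finite kernel, over a field generated by polynomial values. -/
theorem finite_kernel_of_generated {J : Type*} [Fintype J] [DecidableEq J] {K : Type*} [Field K]
    [CharP K p] (π : MvPolynomial J (ZMod p) →+* K)
    (hgen : ∀ x : K, ∃ a b, π b ≠ 0 ∧ x = π a / π b)
    (C₀ : A → I → MvPolynomial J (ZMod p)) (Γ : Fin d → I → MvPolynomial J (ZMod p)) :
    (kernelSets p {m : Fin d → ℕ | ∀ a, ∑ i, π (C₀ a i) * ∏ j, π (Γ j i) ^ m j = 0}).Finite := by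
  classical
  obtain ⟨B, δ, D, hδ, hind, hsec⟩ := exists_coordinates π hgen
  set Δ := univ.sup fun i => ∑ j, (Γ j i).totalDegree
  set N := Δ + 2 * D + univ.sup fun ai : A × I => (C₀ ai.1 ai.2).totalDegree
  set Z : (I → MvPolynomial J (ZMod p)) → Set (Fin d → ℕ) :=
    fun C => {m | ∑ i, π (C i) * ∏ j, π (Γ j i) ^ m j = 0}
  set St : Set (I → MvPolynomial J (ZMod p)) := {C | ∀ i, (C i).totalDegree ≤ N}
  have hSt : St.Finite := by
    haveI : Finite (restrictTotalDegree J (ZMod p) N) := Module.finite_of_finite (ZMod p)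
    refine (Set.Finite.pi fun _ : I =>
      Set.toFinite (restrictTotalDegree J (ZMod p) N : Set (MvPolynomial J (ZMod p)))).subset
        fun C hC i _ => (mem_restrictTotalDegree _ _ _).2 (hC i)
  set 𝒮 : Set (Set (Fin d → ℕ)) := (fun T : Set (I → MvPolynomial J (ZMod p)) => ⋂ C ∈ T, Z C) ''
    St.powerset
  have h𝒮 : 𝒮.Finite := hSt.finite_subsets.image _
  have hone : ∀ C ∈ St, ∀ r : Fin d → ℕ, (∀ j, r j < p) →
      ∃ T ⊆ St, {m | (fun j => p * m j + r j) ∈ Z C} = ⋂ C' ∈ T, Z C' := by
    intro C hC r hr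
    choose T hTdeg hT using fun i => hsec (C i * ∏ j, Γ j i ^ r j)
    refine ⟨(fun b i => T i b) '' (B : Set K), ?_, ?_⟩
    · rintro _ ⟨b, -, rfl⟩ i
      refine Nat.le_of_mul_le_mul_left ((hTdeg i b).trans ?_) hp.out.pos
      have h1 : (∏ j, Γ j i ^ r j).totalDegree ≤ (p - 1) * Δ := by
        refine (totalDegree_finset_prod _ _).trans ?_
        refine le_trans (sum_le_sum fun j _ => totalDegree_pow (Γ j i) (r j)) ?_
        refine le_trans (sum_le_sum fun j _ =>
          Nat.mul_le_mul_right _ (Nat.le_sub_one_of_lt (hr j))) ?_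
        rw [← mul_sum]
        exact Nat.mul_le_mul_left _ (le_sup (f := fun i => ∑ j, (Γ j i).totalDegree) (mem_univ i))
      have h2 := (totalDegree_mul (C i) (∏ j, Γ j i ^ r j)).trans (Nat.add_le_add (hC i) h1)
      have h3 : Δ + 2 * D ≤ N := Nat.le_add_right _ _
      have h4 := hp.out.two_le
      obtain ⟨q, hq⟩ : ∃ q, p = q + 1 := ⟨p - 1, by omega⟩
      have h5 : (p - 1) * Δ + Δ = p * Δ := by
        rw [← Nat.succ_mul]; congr 1; omega
      have h6 : (p - 1) * (Δ + 2 * D) ≤ (p - 1) * N := Nat.mul_le_mul_left _ h3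
      have h7 : (p - 1) * N + N = p * N := by
        rw [← Nat.succ_mul]; congr 1; omega
      have h8 : p * D ≤ (p - 1) * (2 * D) := by
        rw [← mul_assoc]; exact Nat.mul_le_mul_right D (by omega)
      rw [mul_add] at h6
      omega
    · ext m
      simp only [Set.mem_iInter, Set.forall_mem_image, Z, Set.mem_ofPred_eq, mem_coe]
      have e : ∑ i, π (C i) * ∏ j, π (Γ j i) ^ (p * m j + r j) =
          ∑ b ∈ B, b * ((∑ i, π (T i b) * ∏ j, π (Γ j i) ^ m j) / π δ) ^ p := by
        have h : ∀ i, π (C i) * ∏ j, π (Γ j i) ^ (p * m j + r j) =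
            ∑ b ∈ B, b * ((π (T i b) * ∏ j, π (Γ j i) ^ m j) / π δ) ^ p := fun i => by
          rw [show ∏ j, π (Γ j i) ^ (p * m j + r j) =
              π (∏ j, Γ j i ^ r j) * (∏ j, π (Γ j i) ^ m j) ^ p by
            rw [map_prod, ← prod_pow, ← prod_mul_distrib]
            exact prod_congr rfl fun j _ => by rw [map_pow, pow_add, pow_mul']; ring,
            ← mul_assoc, ← map_mul, hT i, sum_mul]
          exact sum_congr rfl fun b _ => by rw [mul_div_right_comm, mul_pow, mul_assoc]
        rw [sum_congr rfl fun i _ => h i, sum_comm]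
        exact sum_congr rfl fun b _ => by rw [← mul_sum, ← sum_pow_char p, ← sum_div]
      rw [e]
      constructor
      · intro h b hb
        simpa [hδ] using hind _ h b hb
      · intro h
        exact sum_eq_zero fun b hb => by rw [h hb, zero_div, zero_pow hp.out.ne_zero, mul_zero]
  have hclosed : ∀ S ∈ 𝒮, ∀ r : Fin d → ℕ, (∀ j, r j < p) →
      {m | (fun j => p * m j + r j) ∈ S} ∈ 𝒮 := by
    rintro _ ⟨T, hT, rfl⟩ r hr
    choose! T' hT' hT'eq using fun C (hC : C ∈ T) => hone C (hT hC) r hr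
    refine ⟨⋃ C ∈ T, T' C, Set.iUnion₂_subset hT', ?_⟩
    ext m
    simp only [Set.mem_iInter, Set.mem_iUnion, Set.mem_ofPred_eq, forall_exists_index]
    constructor
    · intro h C hC
      exact (Set.ext_iff.1 (hT'eq C hC) m).2 (Set.mem_iInter₂.2 fun C' hC' => h C' C hC hC')
    · intro h C' C hC hC'
      exact Set.mem_iInter₂.1 ((Set.ext_iff.1 (hT'eq C hC) m).1 (h C hC)) C' hC'
  have hall : ∀ k : ℕ, ∀ S ∈ 𝒮, ∀ r : Fin d → ℕ, (∀ j, r j < p ^ k) →
      {m | (fun j => p ^ k * m j + r j) ∈ S} ∈ 𝒮 := by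
    intro k
    induction k with
    | zero =>
      intro S hS r hr
      convert hS using 1
      ext m
      simp only [pow_zero, Nat.lt_one_iff] at hr
      simp [hr]
    | succ k ih =>
      intro S hS r hr
      have := ih _ (hclosed S hS (fun j => r j % p) fun j => Nat.mod_lt _ hp.out.pos)
        (fun j => r j / p) fun j => Nat.div_lt_of_lt_mul (by rw [← pow_succ']; exact hr j)
      convert this using 1
      ext m
      simp only [Set.mem_ofPred_eq]
      rw [show (fun j => p ^ (k + 1) * m j + r j) =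
        fun j => p * (p ^ k * m j + r j / p) + r j % p from funext fun j => by
          rw [pow_succ', mul_add, ← mul_assoc, add_assoc, Nat.div_add_mod]]
  refine h𝒮.subset ?_
  rintro _ ⟨k, r, hr, rfl⟩
  refine hall k _ ⟨Set.range C₀, ?_, ?_⟩ r hr
  · rintro _ ⟨a, rfl⟩ i
    exact (le_sup (f := fun ai : A × I => (C₀ ai.1 ai.2).totalDegree) (mem_univ (a, i))).trans
      (Nat.le_add_left _ _)
  · ext m
    simp [Z]

/-- **Exponential sums in characteristic `p`** have finite kernels. -/
theorem finite_kernel {K : Type*} [Field K] [CharP K p] (c : A → I → K) (γ : Fin d → I → K) :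
    (kernelSets p {m : Fin d → ℕ | ∀ a, ∑ i, c a i * ∏ j, γ j i ^ m j = 0}).Finite := by
  classical
  set v : A × I ⊕ Fin d × I → K := Sum.elim (fun ai => c ai.1 ai.2) fun ji => γ ji.1 ji.2
  set L := Subfield.closure (Set.range v)
  haveI : CharP L p := (CharP.charP_iff_prime_eq_zero hp.out).2
    (Subtype.ext (by simp [CharP.cast_eq_zero K p]))
  set π : MvPolynomial (A × I ⊕ Fin d × I) (ZMod p) →+* L :=
    eval₂Hom (ZMod.castHom dvd_rfl L) fun s => ⟨v s, Subfield.subset_closure ⟨s, rfl⟩⟩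
  have hgen : ∀ x : L, ∃ a b, π b ≠ 0 ∧ x = π a / π b := by
    intro x
    have hle : Subring.closure (Set.range v) ≤ (L.subtype.comp π).range :=
      Subring.closure_le.2 (by rintro _ ⟨s, rfl⟩; exact ⟨X s, by simp [π]⟩)
    obtain ⟨y, hy, z, hz, hyz⟩ := Subfield.mem_closure_iff.1 x.2
    obtain ⟨a, ha⟩ := hle hy
    obtain ⟨b, hb⟩ := hle hz
    by_cases hb0 : π b = 0
    · refine ⟨0, 1, by simp, ?_⟩
      have : z = 0 := by rw [← hb]; simp [hb0]
      exact Subtype.ext (by simp [← hyz, this])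
    · refine ⟨a, b, hb0, Subtype.ext ?_⟩
      simp [← hyz, ← ha, ← hb]
  have h := finite_kernel_of_generated π hgen (fun a i => X (Sum.inl (a, i)))
    fun j i => X (Sum.inr (j, i))
  convert h using 3
  ext m
  refine forall_congr' fun a => ?_
  rw [← map_eq_zero L.subtype]
  simp [π, v]

end FA.AutomaticZeros

end
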