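import Fermat.Agent.AutomaticZeros.Kernel
import Mathlib.Algebra.LinearRecurrence
import Mathlib.FieldTheory.IsAlgClosed.AlgebraicClosure
import Mathlib.LinearAlgebra.Lagrange
import Mathlib.Algebra.CharP.Algebra
import Mathlib.Algebra.CharP.Reduced
import Mathlib.Algebra.Polynomial.Expand

/-!
# Linear recurrences in characteristic `p`

For `q = p ^ a` at least the order, `(S - α) ^ q = S ^ q - α ^ q` makes each section modulo `q` of a
recurrence a sum of geometric sequences, so the zero sets have finite kernels.
-/

set_option autoImplicit false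

noncomputable section

open Polynomial Finset

namespace FA.AutomaticZeros

variable {p : ℕ} [hp : Fact p.Prime]

/-- A set with finitely many sections of finite kernel has finite kernel. -/
theorem finite_kernel_of_sections {d : ℕ} {Z : Set (Fin d → ℕ)} (a : ℕ)
    (h : ∀ r : Fin d → ℕ, (∀ j, r j < p ^ a) →
      (kernelSets p {m | (fun j => p ^ a * m j + r j) ∈ Z}).Finite) :
    (kernelSets p Z).Finite := by
  classical
  have hbox : ∀ N, {r : Fin d → ℕ | ∀ j, r j < N}.Finite := fun N =>
    (Set.Finite.pi fun _ : Fin d => Set.finite_Iio N).subset fun r hr j _ => hr j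
  refine (((Set.finite_Iio a).biUnion fun k _ => (hbox (p ^ k)).image
      fun r => {m : Fin d → ℕ | (fun j => p ^ k * m j + r j) ∈ Z}).union
    ((hbox (p ^ a)).biUnion fun r hr => h r hr)).subset ?_
  rintro _ ⟨k, r, hr, rfl⟩
  by_cases hk : k < a
  · exact Or.inl (Set.mem_biUnion hk ⟨r, hr, rfl⟩)
  · obtain ⟨l, rfl⟩ := Nat.exists_eq_add_of_le (not_lt.1 hk)
    have hpa : 0 < p ^ a := Nat.pow_pos hp.out.pos
    refine Or.inr (Set.mem_biUnion (x := fun j => r j % p ^ a) (fun j => Nat.mod_lt _ hpa)
      ⟨l, fun j => r j / p ^ a, fun j => Nat.div_lt_of_lt_mul (by rw [← pow_add]; exact hr j), ?_⟩)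
    ext m
    simp only [Set.mem_ofPred_eq]
    rw [show (fun j => p ^ (a + l) * m j + r j) =
      fun j => p ^ a * (p ^ l * m j + r j / p ^ a) + r j % p ^ a from funext fun j => by
        rw [pow_add, mul_add, ← mul_assoc, add_assoc, Nat.div_add_mod]]

variable {K : Type*} [Field K] [CharP K p]

/-- **Sections of recurrences are exponential sums.** -/
theorem exists_geometric_sections {F : Type*} [Field F] [IsAlgClosed F] [CharP F p] (ι : K →+* F)
    (E : LinearRecurrence K) {u : ℕ → K} (hu : E.IsSolution u) {a : ℕ} (ha : E.order ≤ p ^ a) :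
    ∃ (s : Finset F) (c : ℕ → F → F),
      ∀ r m : ℕ, ι (u (p ^ a * m + r)) = ∑ β ∈ s, c r β * β ^ m := by
  classical
  set q := p ^ a with hq
  set L : F[X] →ₗ[F] F :=
    Polynomial.lsum fun i => ι (u i) • LinearMap.id
  have hL : ∀ i b, L (monomial i b) = b * ι (u i) := fun i b => by
    simp [L, Polynomial.lsum_apply, Polynomial.sum_monomial_index, mul_comm]
  set χ := E.charPoly.map ι with hχ
  have hann : ∀ R, L (χ * R) = 0 := by
    intro R
    induction R using Polynomial.induction_on' with
    | add A B hA hB => rw [mul_add, map_add, hA, hB, add_zero]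
    | monomial j b =>
      simp only [hχ, LinearRecurrence.charPoly, Polynomial.map_sub, Polynomial.map_sum,
        map_monomial, map_one, sub_mul, sum_mul, monomial_mul_monomial, map_sub, map_sum, hL,
        one_mul]
      rw [add_comm E.order j, hu j, map_sum, mul_sum, sub_eq_zero]
      exact sum_congr rfl fun i _ => by rw [add_comm (i : ℕ) j, map_mul]; ring
  have hmon : χ.Monic := E.charPoly_monic.map ι
  set s := χ.roots.toFinset.image fun α => α ^ q
  set P := Lagrange.nodal s id
  have hdvd : χ ∣ expand F q P := by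
    have hsplit : χ.Splits := IsAlgClosed.splits χ
    have hdeg : χ.natDegree = E.order := by
      rw [hχ, natDegree_map]; exact natDegree_eq_of_degree_eq_some E.charPoly_degree_eq_order
    have hprod : expand F q P = ∏ α ∈ χ.roots.toFinset, (X - C α) ^ q := by
      have hinj : Set.InjOn (fun α : F => α ^ q) χ.roots.toFinset :=
        fun x _ y _ h => iterateFrobenius_inj F p a
          (by simpa [iterateFrobenius_def, hq] using h)
      rw [show P = ∏ β ∈ s, (X - C β) from rfl, prod_image hinj, map_prod]
      refine prod_congr rfl fun α _ => ?_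
      rw [map_sub, expand_X, expand_C, hq, sub_pow_char_pow, ← C_pow]
    have hfac : χ = ∏ α ∈ χ.roots.toFinset, (X - C α) ^ χ.roots.count α := by
      conv_lhs => rw [hsplit.eq_prod_roots_of_monic hmon, Finset.prod_multiset_map_count]
    rw [hprod]
    conv_lhs => rw [hfac]
    refine Finset.prod_dvd_prod_of_dvd _ _ fun α _ => pow_dvd_pow _ ?_
    exact ((Multiset.count_le_card _ _).trans (card_roots' χ)).trans (hdeg.trans_le ha)
  refine ⟨s, fun r β => L (X ^ r * expand F q (Lagrange.basis s id β)),
    fun r m => ?_⟩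
  obtain ⟨R, hR⟩ : P ∣ X ^ m - ∑ β ∈ s, C (β ^ m) * Lagrange.basis s id β := by
    rw [show P = ∏ β ∈ s, (X - C β) from rfl]
    refine Finset.prod_dvd_of_coprime (fun i _ j _ hij => isCoprime_X_sub_C_of_isUnit_sub
      (isUnit_iff_ne_zero.2 (sub_ne_zero.2 hij))) fun β hβ => ?_
    rw [dvd_iff_isRoot, IsRoot, eval_sub, eval_pow, eval_X, eval_finsetSum, sub_eq_zero,
      sum_eq_single β]
    · have h0 : (Lagrange.basis s id β).eval (id β) = 1 :=
        Lagrange.eval_basis_self (Set.injOn_id _) hβ
      rw [eval_mul, eval_C, show (Lagrange.basis s id β).eval β = 1 from h0, mul_one]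
    · intro γ _ hγ
      have h0 : (Lagrange.basis s id γ).eval (id β) = 0 := Lagrange.eval_basis_of_ne hγ hβ
      rw [eval_mul, show (Lagrange.basis s id γ).eval β = 0 from h0, mul_zero]
    · exact fun h => absurd hβ h
  have h1 : ι (u (q * m + r)) = L (X ^ r * expand F q (X ^ m)) := by
    rw [map_pow, expand_X, ← pow_mul, ← pow_add, X_pow_eq_monomial, hL, one_mul, add_comm]
  rw [h1, show X ^ m = P * R + ∑ β ∈ s, C (β ^ m) * Lagrange.basis s id β by rw [← hR]; ring,
    map_add (expand _ q), mul_add, map_add L, map_mul (expand F q), ← mul_assoc, mul_comm (X ^ r)]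
  obtain ⟨Q, hQ⟩ := hdvd
  rw [hQ, mul_assoc χ, mul_assoc χ, hann, zero_add, map_sum, mul_sum, map_sum]
  refine sum_congr rfl fun β _ => ?_
  rw [map_mul (expand F q), expand_C, mul_left_comm, ← smul_eq_C_mul, map_smul, smul_eq_mul,
    mul_comm]

/-- **Zero sets of linear recurrences** have finite kernels. -/
theorem finite_kernel_recurrence (E : LinearRecurrence K) {u : ℕ → K} (hu : E.IsSolution u) :
    (kernelSets p {m : Fin 1 → ℕ | u (m 0) = 0}).Finite := by
  classical
  haveI : CharP (AlgebraicClosure K) p :=
    charP_of_injective_algebraMap (algebraMap K _).injective p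
  obtain ⟨s, c, hc⟩ := exists_geometric_sections (p := p) (algebraMap K (AlgebraicClosure K)) E hu
    (a := E.order)
    (Nat.lt_pow_self hp.out.one_lt).le
  refine finite_kernel_of_sections E.order fun r _ => ?_
  convert finite_kernel (p := p) (A := Unit) (fun _ (β : s) => c (r 0) β)
    (fun (_ : Fin 1) (β : s) => (β : AlgebraicClosure K)) using 3
  ext m
  simp only [Set.mem_ofPred_eq, Fin.prod_univ_one, forall_const,
    sum_coe_sort s fun β => c (r 0) β * β ^ m 0, ← hc,
    map_eq_zero]

end FA.AutomaticZeros

end
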