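import Mathlib.RingTheory.MvPolynomial.Basic
import Mathlib.Algebra.CharP.Lemmas
import Mathlib.Algebra.CharP.Subring
import Mathlib.FieldTheory.Finite.Basic
import Mathlib.LinearAlgebra.LinearIndependent.Lemmas
import Mathlib.Algebra.Field.Subfield.Basic
import Mathlib.Algebra.BigOperators.Field

/-!
# Sections of polynomials modulo `p`-th powers

A polynomial over `𝔽_p` is a combination of the small monomials with `p`-th powers of small degree,
and in a field generated by its variables these monomials are combinations of a basis over the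
`p`-th powers.
-/

set_option autoImplicit false

noncomputable section

open MvPolynomial Finset

namespace FA.AutomaticZeros

variable {p : ℕ} [hp : Fact p.Prime] {J : Type*} [Fintype J] [DecidableEq J]

/-- The monomials with exponents below `p`. -/
def smallMonomial (e : J → Fin p) : MvPolynomial J (ZMod p) := ∏ j, X j ^ (e j : ℕ)

theorem exists_sections (P : MvPolynomial J (ZMod p)) :
    ∃ W : (J → Fin p) → MvPolynomial J (ZMod p),
      (∀ e, p * (W e).totalDegree ≤ P.totalDegree) ∧ P = ∑ e, smallMonomial e * W e ^ p := by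
  classical
  have hp0 := hp.out.pos
  set cls : (J →₀ ℕ) → J → Fin p := fun s j => ⟨s j % p, Nat.mod_lt _ hp0⟩ with hcls
  set quo : (J →₀ ℕ) → (J →₀ ℕ) := fun s => s.mapRange (· / p) (Nat.zero_div p) with hquo
  refine ⟨fun e => ∑ s ∈ P.support.filter fun s => cls s = e, monomial (quo s) (P.coeff s),
    fun e => ?_, ?_⟩
  · rw [mul_comm, ← Nat.le_div_iff_mul_le hp0]
    refine (totalDegree_finsetSum _ _).trans (Finset.sup_le fun s hs => ?_)
    refine (totalDegree_monomial_le _ _).trans ?_
    rw [Nat.le_div_iff_mul_le hp0]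
    refine le_trans ?_ (le_totalDegree (mem_filter.1 hs).1)
    rw [show Finsupp.sum (quo s) (fun _ => id) = ∑ j, s j / p by
        simp [hquo, Finsupp.sum_fintype],
      show (s.sum fun _ x => x) = ∑ j, s j by simp [Finsupp.sum_fintype], sum_mul]
    exact sum_le_sum fun j _ => Nat.div_mul_le_self _ _
  · conv_lhs => rw [P.as_sum]
    rw [← Finset.sum_fiberwise P.support cls]
    refine sum_congr rfl fun e _ => ?_
    rw [sum_pow_char p, mul_sum]
    refine sum_congr rfl fun s hs => ?_
    obtain ⟨-, rfl⟩ := mem_filter.1 hs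
    rw [monomial_pow, ZMod.pow_card, smallMonomial, monomial_eq, monomial_eq,
      Finsupp.prod_fintype _ _ fun j => pow_zero _, Finsupp.prod_fintype _ _ fun j => pow_zero _,
      mul_left_comm, ← prod_mul_distrib]
    congr 1
    refine prod_congr rfl fun j _ => ?_
    rw [← pow_add]
    congr 1
    simp [hcls, hquo, Nat.mod_add_div]

variable {K : Type*} [Field K] [CharP K p]

/-- **Sections in a field**: coordinates over the `p`-th powers, with bounded degree. -/
theorem exists_coordinates (π : MvPolynomial J (ZMod p) →+* K)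
    (hgen : ∀ x : K, ∃ a b, π b ≠ 0 ∧ x = π a / π b) :
    ∃ (B : Finset K) (δ : MvPolynomial J (ZMod p)) (D : ℕ), π δ ≠ 0 ∧
      (∀ x : K → K, ∑ b ∈ B, b * x b ^ p = 0 → ∀ b ∈ B, x b = 0) ∧
      ∀ P, ∃ T : K → MvPolynomial J (ZMod p),
        (∀ b, p * (T b).totalDegree ≤ P.totalDegree + p * D) ∧
        π P = ∑ b ∈ B, b * (π (T b) / π δ) ^ p := by
  classical
  set Kp := (frobenius K p).fieldRange
  obtain ⟨s, hs, hspan, hind⟩ :=
    exists_linearIndependent Kp (Set.range fun e : J → Fin p => π (smallMonomial e))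
  have hsfin : s.Finite := (Set.finite_range _).subset hs
  set B := hsfin.toFinset with hB
  have hindB : ∀ x : K → K, ∑ b ∈ B, b * x b ^ p = 0 → ∀ b ∈ B, x b = 0 := by
    intro x hx b hb
    have hmem : ∀ y : K, y ^ p ∈ Kp := fun y => ⟨y, frobenius_def p y⟩
    have h := linearIndepOn_iff'.1 (show LinearIndepOn Kp id s from hind) B
      (fun b => ⟨x b ^ p, hmem _⟩) (by simp [hB]) (by
        rw [← hx]
        exact sum_congr rfl fun c _ => by simp [Subfield.smul_def, mul_comm]) b hb
    exact eq_zero_of_pow_eq_zero (congrArg Subtype.val h)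
  have hrepr : ∀ e : J → Fin p, ∃ l : K → K, ∑ b ∈ B, b * l b ^ p = π (smallMonomial e) := by
    intro e
    have h : π (smallMonomial e) ∈ Submodule.span Kp (B : Set K) := by
      rw [hB, Set.Finite.coe_toFinset, hspan]
      exact Submodule.subset_span ⟨e, rfl⟩
    obtain ⟨f, -, hf⟩ := Submodule.mem_span_finset.1 h
    choose l hl using fun b => RingHom.mem_fieldRange.1 (f b).2
    refine ⟨l, hf ▸ sum_congr rfl fun b _ => ?_⟩
    rw [Subfield.smul_def, ← hl, frobenius_def, smul_eq_mul, mul_comm]
  choose l hl using hrepr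
  choose a q hq hlq using fun (e : J → Fin p) (b : K) => hgen (l e b)
  set δ := ∏ i : (J → Fin p) × B, q i.1 i.2 with hδdef
  have hδ : π δ ≠ 0 := by
    rw [hδdef, map_prod]
    exact prod_ne_zero_iff.2 fun i _ => hq _ _
  have hΛ : ∀ e (b : B), ∃ Λ, π Λ = π δ * l e b := fun e b => by
    refine ⟨a e b * ∏ i ∈ (univ : Finset ((J → Fin p) × B)).erase (e, b), q i.1 i.2, ?_⟩
    rw [hδdef, ← mul_prod_erase univ _ (mem_univ (e, b)), map_mul, map_mul, hlq e b]
    field_simp [hq e b]
  choose Λ hΛ using hΛ
  refine ⟨B, δ, univ.sup fun i : (J → Fin p) × B => (Λ i.1 i.2).totalDegree, hδ, hindB,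
    fun P => ?_⟩
  obtain ⟨W, hWdeg, hP⟩ := exists_sections P
  refine ⟨fun b => if hb : b ∈ B then ∑ e, Λ e ⟨b, hb⟩ * W e else 0, fun b => ?_, ?_⟩
  · dsimp only
    split_ifs with hb
    · rw [mul_comm, ← Nat.le_div_iff_mul_le hp.out.pos]
      refine (totalDegree_finsetSum _ _).trans (Finset.sup_le fun e _ => ?_)
      refine (totalDegree_mul _ _).trans ?_
      rw [Nat.add_mul_div_left _ _ hp.out.pos, add_comm]
      exact Nat.add_le_add ((Nat.le_div_iff_mul_le hp.out.pos).2 (mul_comm p _ ▸ hWdeg e))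
        (le_sup (f := fun i : (J → Fin p) × B => (Λ i.1 i.2).totalDegree) (mem_univ (e, ⟨b, hb⟩)))
    · simp
  · conv_lhs => rw [hP, map_sum]
    rw [sum_congr rfl fun e _ => by rw [map_mul, map_pow, ← hl e, sum_mul], sum_comm]
    refine sum_congr rfl fun b hb => ?_
    dsimp only
    rw [dif_pos hb, map_sum, sum_div, sum_pow_char p, mul_sum]
    refine sum_congr rfl fun e _ => ?_
    rw [map_mul, hΛ e ⟨b, hb⟩, mul_assoc (π δ), mul_div_cancel_left₀ _ hδ, mul_pow, mul_assoc]

end FA.AutomaticZeros

end
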